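import Fermat.Agent.S55.Spec.Datum2
import Fermat.Agent.S55.T.InfDescentH244

/-!
# GD8 from GD1 and descent  (helper244)

For a tower datum `D` (`Spec/Datum.lean`): if `D` satisfies GD1 above `μ_p` (only the vanishing of
`H¹` on `p`-subgroups is used) and DESCENT (`tr : C(F) → C(F')` is injective with image the
`Gal(F'/F)`-invariants), then `D` satisfies GD8 in the exact shape of
`Tow.TowerDatum.IsGoodMu.gd8` / `IsGood.gd8`: inflation
`H²(G_F, C(F)) → H²(G_{F'}, C(F'))` is injective on `p`-torsion.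

No reciprocity law is used (`T/InfDescentH244.lean`: inflation–restriction up to torsion).
-/

set_option autoImplicit false

open CategoryTheory

namespace Fermat.Agent.S55.E1.H244

open Fermat.Agent.S55 Fermat.Agent.S55.Tow

variable {S : Finset Nat.Primes}

/-- The projection `Gal(F'/ℚ) → Gal(F/ℚ)` is surjective. -/
lemma proj_surjective {L L' : Level S} (h : L ≤ L') : Function.Surjective (Level.proj h) := by
  intro x
  induction x using QuotientGroup.induction_on with
  | H g => exact ⟨QuotientGroup.mk g, rfl⟩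

/-- Descent for a tower datum along `F ≤ F'`: `tr` is injective with image the
`Gal(F'/F)`-invariants. -/
def HasDescent (D : TowerDatum S) {L L' : Level S} (h : L ≤ L') : Prop :=
  Function.Injective (D.tr h).hom ∧
    ∀ c' : (D.C L').V, (∀ n ∈ Level.relGal h, (D.C L').ρ n c' = c') →
      ∃ c : (D.C L).V, (D.tr h).hom c = c'

/-- **GD8 at one step** from `H¹`-vanishing on `p`-subgroups at the upper level and descent;
`p`-primary version. -/
theorem inf_eq_zero_of_pPrimary (D : TowerDatum S) (p : ℕ) (hp : p.Prime) {L L' : Level S}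
    (h : L ≤ L') (hdesc : HasDescent D h)
    (hH1 : ∀ Q : Subgroup L'.Gal, IsPGroup p Q →
      Limits.IsZero (groupCohomology (T.resSub (D.C L') Q) 1))
    (z : groupCohomology (D.C L) 2) (n : ℕ) (hz : p ^ n • z = 0) (h0 : D.inf h z = 0) :
    z = 0 :=
  T.H244.eq_zero_of_map_eq_zero_of_pPrimary (Level.proj h) (proj_surjective h) (D.C L) (D.C L')
    (D.tr h) hdesc.1 hdesc.2 p hp hH1 z n hz h0

/-- **GD8 (exact shape of `IsGoodMu.gd8`) from GD1 and descent.** -/
theorem gd8_of_gd1_of_descent (D : TowerDatum S) (p : ℕ) (hp : p.Prime)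
    (hgd1 : ∀ L : Level S, L.HasMu p → E1.IsClassModuleAt p (D.C L) (D.γ L))
    (hdesc : ∀ {L L' : Level S} (h : L ≤ L'), L.HasMu p → HasDescent D h)
    {L L' : Level S} (h : L ≤ L') (hL : L.HasMu p) (z : groupCohomology (D.C L) 2)
    (hz : p • z = 0) (h0 : D.inf h z = 0) : z = 0 :=
  inf_eq_zero_of_pPrimary D p hp h (hdesc h hL)
    (fun Q hQ => (hgd1 L' (hL.mono h) Q hQ).1) z 1 (by rwa [pow_one]) h0

/-- Same for the strong form `IsGood.gd8` (no `μ_p` hypothesis). -/
theorem gd8_of_gd1_of_descent' (D : TowerDatum S) (p : ℕ) (hp : p.Prime)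
    (hgd1 : ∀ L : Level S, E1.IsClassModuleAt p (D.C L) (D.γ L))
    (hdesc : ∀ {L L' : Level S} (h : L ≤ L'), HasDescent D h)
    {L L' : Level S} (h : L ≤ L') (z : groupCohomology (D.C L) 2)
    (hz : p • z = 0) (h0 : D.inf h z = 0) : z = 0 :=
  inf_eq_zero_of_pPrimary D p hp h (hdesc h)
    (fun Q hQ => (hgd1 L' Q hQ).1) z 1 (by rwa [pow_one]) h0

end Fermat.Agent.S55.E1.H244
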